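import Fermat.Agent.Corollaries.Herm.Diff
import Fermat.Agent.Classic.Level.Disc.Orbits
import Fermat.Agent.Corollaries.ZetaK.Gassmann

/-!
# Ramification in the normal closure

A prime number `q` does not divide the discriminant of the number field `F` if and only if the
inertia group of a valuation ring of `ℚ̄` above `q` fixes all embeddings of `F` in `ℚ̄`
(`not_dvd_discr_iff`). Hence the prime divisors of the discriminant of the normal closure divide the
discriminant (`dvd_discr_of_conjField`).
-/

set_option autoImplicit false

namespace Fermat.Agent.Cor.Herm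

open NumberField IsDedekindDomain Fermat.Agent.Frob Fermat.Agent.Classic.Disc
open Fermat.Agent.Cor.Frob

local notation "Qbar" => AlgebraicClosure ℚ

section

variable {F : Type*} [Field F] [NumberField F]

/-- **Ramification and inertia**: `q` does not divide the discriminant if and only if inertia at `q`
fixes all embeddings. -/
theorem not_dvd_discr_iff {q : ℕ} (hq : q.Prime) {A : ValuationSubring Qbar}
    (hA : A.LiesOverPrime q) :
    ¬ q ∣ (discr F).natAbs ↔ ∀ σ ∈ A.inertiaSubgroupIn ℚ, embPerm F σ = 1 := by
  classical
  have hD0 : (discr F).natAbs ≠ 0 := Int.natAbs_ne_zero.2 (discr_ne_zero F)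
  have : Fact q.Prime := ⟨hq⟩
  have hc : Nat.card (Quotient (orb F A)) = fSum F q := card_orbits hq hA
  have hn : Nat.card (F →+* Qbar) = Module.finrank ℚ F := natCard_emb F
  constructor
  · intro hqD σ hσ
    have h1 := le_wild (F := F) hq
    rw [padicValNat.eq_zero_of_not_dvd hqD, zero_add, ← hc, ← hn] at h1
    have h2 : Function.Bijective (Quotient.mk (orb F A)) :=
      Quotient.mk_surjective.bijective_of_nat_card_le h1
    ext i : 1
    exact (h2.1 (Quotient.sound (s := orb F A) (show (orb F A) i (embPerm F σ i) from
      ⟨σ, hσ, fun x => rfl⟩))).symm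
  · intro h
    have h1 : Function.Bijective (Quotient.mk (orb F A)) := by
      refine ⟨fun i j hij => ?_, Quotient.mk_surjective⟩
      obtain ⟨σ, hσ, hx⟩ := Quotient.exact hij
      have h2 : embPerm F σ i = i := by rw [h σ hσ]; rfl
      rw [← h2]
      exact (RingHom.ext hx).symm
    have h2 : fSum F q = Module.finrank ℚ F := by
      rw [← hc, ← hn]
      exact (Nat.card_congr (Equiv.ofBijective _ h1)).symm
    have h3 : ∀ v ∈ above F q, fdeg v = ram v * fdeg v := by
      refine (Finset.sum_eq_sum_iff_of_le fun v _ => ?_).1 ?_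
      · exact Nat.le_mul_of_pos_left _ (ram_pos v)
      · rw [sum_ram_fdeg (F := F) hq, ← h2]
        rfl
    have h4 := tame (F := F) hq fun v hv => by
      have h5 := h3 v hv
      have h6 : ram v = 1 := by
        have := fdeg_pos v
        nlinarith [ram_pos v]
      rw [h6]
      exact hq.one_lt.ne' ∘ Nat.dvd_one.1
    rw [h2] at h4
    rw [dvd_iff_padicValNat_ne_zero hD0]
    omega

end

variable (K : Type*) [Field K] [NumberField K]

theorem conjField_eq_normalClosure :
    conjField K = IntermediateField.normalClosure ℚ K Qbar := by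
  rw [conjField, normalClosure_def]
  refine le_antisymm (iSup_le fun j => ?_) (iSup_le fun f => ?_)
  · exact le_iSup (fun f : K →ₐ[ℚ] Qbar => f.fieldRange) j.toRatAlgHom
  · exact le_iSup (fun j : K →+* Qbar => j.toRatAlgHom.fieldRange) f.toRingHom

instance isGalois_conjField : IsGalois ℚ (conjField K) := by
  have : Normal ℚ (conjField K) := by
    rw [conjField_eq_normalClosure]
    exact normalClosure.normal ℚ K Qbar
  exact ⟨⟩

theorem finrank_conjField_le :
    Module.finrank ℚ (conjField K) ≤ (Module.finrank ℚ K).factorial := by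
  have h1 : (conjField K).fixingSubgroup = (embPerm K).ker := by
    ext σ
    rw [mem_fixingSubgroup_conjField, MonoidHom.mem_ker]
  rw [IntermediateField.finrank_eq_fixingSubgroup_index, h1, Subgroup.index_ker, ← natCard_emb K,
    ← Nat.card_perm]
  exact Nat.card_le_card_of_injective _ Subtype.val_injective

variable {K}

/-- **The ramified primes of the normal closure are ramified.** -/
theorem dvd_discr_of_conjField {q : ℕ} (hq : q.Prime)
    (h : q ∣ (discr (conjField K)).natAbs) : q ∣ (discr K).natAbs := by
  obtain ⟨A, hA, -⟩ := exists_frobenius q hq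
  by_contra hK
  rw [not_dvd_discr_iff hq hA] at hK
  refine absurd h ?_
  rw [not_dvd_discr_iff hq hA]
  intro σ hσ
  ext i x
  obtain ⟨⟨-, τ, rfl⟩, hτ⟩ := MulAction.exists_smul_eq (GalK (conjField K))
    ((conjField K).val : conjField K →+* Qbar) i
  have h1 : ∀ y : conjField K, i y = τ (y : Qbar) := fun y =>
    (RingHom.congr_fun hτ y).symm
  have h2 : embPerm K (τ⁻¹ * σ * τ) = 1 := by
    rw [map_mul, map_mul, hK σ hσ, map_inv]
    group
  rw [← mem_fixingSubgroup_conjField, IntermediateField.mem_fixingSubgroup_iff] at h2
  have h3 := h2 x x.2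
  change σ (i x) = i x
  rw [h1]
  have h4 : τ ((τ⁻¹ * σ * τ) (x : Qbar)) = σ (τ (x : Qbar)) := by
    change τ (τ.symm (σ (τ (x : Qbar)))) = _
    rw [AlgEquiv.apply_symm_apply]
  rw [← h4, h3]

end Fermat.Agent.Cor.Herm
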