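import Fermat.Agent.Classic.Level.Disc.Tame

/-!
# The discriminant of a Galois extension of `ℚ`

Let `L/ℚ` be Galois of degree `N`. The exponent of the prime number `q` in the discriminant is at
most `N k` if `q^k` does not divide `N` (`padicValNat_discr_le`): the different is stable under the
Galois group, so it would otherwise be divisible by `q^k`, and the trace of `q^(-k)`, that is
`N / q^k`, would be an integer. Hence the discriminant is bounded in terms of its prime divisors and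
of the degree (`natAbs_discr_le`).
-/

set_option autoImplicit false

open NumberField IsDedekindDomain Ideal Fermat.Agent.Classic.Disc
open scoped Pointwise

namespace Fermat.Agent.Cor.Herm

variable {L : Type*} [Field L] [NumberField L]

/-- membership in the different -/
theorem mem_different_iff {x : 𝓞 L} : x ∈ differentIdeal ℤ (𝓞 L) ↔
    ∀ y : L, (∀ b : 𝓞 L, ∃ m : ℤ, Algebra.trace ℚ L (y * b) = m) →
      ∃ z : 𝓞 L, (z : L) = x * y := by
  have h : x ∈ differentIdeal ℤ (𝓞 L) ↔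
      (x : L) ∈ IsLocalization.coeSubmodule L (differentIdeal ℤ (𝓞 L)) := by
    rw [IsLocalization.mem_coeSubmodule]
    constructor
    · exact fun hx => ⟨x, hx, rfl⟩
    · rintro ⟨y, hy, hyx⟩
      rwa [← RingOfIntegers.ext hyx]
  rw [h, coeSubmodule_differentIdeal ℤ ℚ (L := L) (𝓞 L), Submodule.mem_div_iff_forall_mul_mem]
  refine forall_congr' fun y => ?_
  refine imp_congr ?_ ?_
  · rw [Submodule.mem_traceDual]
    constructor
    · intro hy b
      obtain ⟨m, hm⟩ := hy (b : L) (Submodule.mem_one.2 ⟨b, rfl⟩)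
      exact ⟨m, hm.symm⟩
    · intro hy a ha
      obtain ⟨b, rfl⟩ := Submodule.mem_one.1 ha
      obtain ⟨m, hm⟩ := hy b
      exact ⟨m, hm.symm⟩
  · rw [Submodule.mem_one]

/-- the different is stable under the Galois group -/
theorem smul_different (σ : L ≃ₐ[ℚ] L) :
    σ • differentIdeal ℤ (𝓞 L) = differentIdeal ℤ (𝓞 L) := by
  have key : ∀ τ : L ≃ₐ[ℚ] L, τ • differentIdeal ℤ (𝓞 L) ≤ differentIdeal ℤ (𝓞 L) := by
    intro τ
    rw [pointwise_smul_def, Ideal.map_le_iff_le_comap]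
    intro x hx
    rw [Ideal.mem_comap]
    change τ • x ∈ _
    rw [mem_different_iff] at hx ⊢
    intro y hy
    obtain ⟨z, hz⟩ := hx (τ.symm y) fun b => by
      obtain ⟨m, hm⟩ := hy (τ • b)
      refine ⟨m, ?_⟩
      rw [← hm, ← Algebra.trace_eq_of_algEquiv τ]
      congr 1
      rw [map_mul, AlgEquiv.apply_symm_apply]
      rfl
    refine ⟨τ • z, ?_⟩
    change τ (z : L) = τ (x : L) * y
    rw [hz, map_mul, AlgEquiv.apply_symm_apply]
  refine le_antisymm (key σ) ?_
  have h := key σ⁻¹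
  rwa [Ideal.pointwise_smul_subset_iff, inv_inv] at h

variable {q : ℕ}

/-- `q^k` does not divide the different if it does not divide the degree -/
theorem not_span_pow_dvd (hq : q.Prime) {k : ℕ} (hk : ¬ q ^ k ∣ Module.finrank ℚ L) :
    ¬ span {(q : 𝓞 L)} ^ k ∣ differentIdeal ℤ (𝓞 L) := by
  intro h
  rw [Ideal.span_singleton_pow, Ideal.dvd_iff_le] at h
  have hq0 : (q : 𝓞 L) ^ k ≠ 0 := pow_ne_zero _ (Nat.cast_ne_zero.2 hq.ne_zero)
  have hqL : (q : L) ^ k ≠ 0 := pow_ne_zero _ (Nat.cast_ne_zero.2 hq.ne_zero)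
  have hqQ : (q : ℚ) ^ k ≠ 0 := pow_ne_zero _ (Nat.cast_ne_zero.2 hq.ne_zero)
  have hI : span {(q : 𝓞 L) ^ k} ≠ ⊥ := by
    rwa [Ne, Ideal.span_singleton_eq_bot]
  rw [differentialIdeal_le_iff (K := ℚ) (L := L) hI] at h
  have hmem : Algebra.trace ℚ L ((algebraMap ℚ L ((q : ℚ) ^ k)⁻¹)) ∈
      (1 : Submodule ℤ ℚ) := by
    refine h ⟨algebraMap ℚ L ((q : ℚ) ^ k)⁻¹, ?_, rfl⟩
    rw [SetLike.mem_coe, Submodule.restrictScalars_mem, FractionalIdeal.mem_coe,
      FractionalIdeal.mem_inv_iff (FractionalIdeal.coeIdeal_ne_zero.2 hI)]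
    intro y hy
    obtain ⟨a, ha, rfl⟩ := (FractionalIdeal.mem_coeIdeal _).1 hy
    obtain ⟨b, rfl⟩ := Ideal.mem_span_singleton'.1 ha
    rw [FractionalIdeal.mem_one_iff]
    refine ⟨b, ?_⟩
    rw [map_inv₀, map_pow, map_natCast, map_mul, map_pow, map_natCast]
    field_simp
  rw [Algebra.trace_algebraMap, Submodule.mem_one] at hmem
  obtain ⟨m, hm⟩ := hmem
  apply hk
  have h1 : ((m * (q : ℤ) ^ k : ℤ) : ℚ) = ((Module.finrank ℚ L : ℤ) : ℚ) := by
    have h2 : ((m : ℤ) : ℚ) = Module.finrank ℚ L • ((q : ℚ) ^ k)⁻¹ := hm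
    push_cast
    rw [h2, nsmul_eq_mul]
    field_simp
  have h3 : m * (q : ℤ) ^ k = (Module.finrank ℚ L : ℤ) := by exact_mod_cast h1
  have h4 : ((q ^ k : ℕ) : ℤ) ∣ (Module.finrank ℚ L : ℤ) := by
    rw [← h3]
    push_cast
    exact dvd_mul_left _ _
  exact_mod_cast h4

/-- divisibility by `q^k` from the places above `q` -/
theorem span_pow_dvd (hq : q.Prime) {k : ℕ} {I : Ideal (𝓞 L)}
    (h : ∀ w ∈ above L q, w.asIdeal ^ (ram w * k) ∣ I) : span {(q : 𝓞 L)} ^ k ∣ I := by
  have hmax := span_isMaximal hq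
  have h0 : (span {(q : ℤ)} : Ideal ℤ) ≠ 0 := by
    rw [Ne, Ideal.zero_eq_bot, Ideal.span_singleton_eq_bot]
    exact_mod_cast hq.ne_zero
  rw [← map_span q, map_algebraMap_eq_finsetProd_pow h0, ← Finset.prod_pow]
  refine Finset.prod_dvd_of_coprime ?_ ?_
  · intro P hP Q hQ hPQ
    have hP' := (Set.mem_toFinset.1 hP)
    have hQ' := (Set.mem_toFinset.1 hQ)
    have : P.LiesOver (span {(q : ℤ)}) := hP'.2
    have : Q.LiesOver (span {(q : ℤ)}) := hQ'.2
    have : P.IsPrime := hP'.1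
    have : Q.IsPrime := hQ'.1
    have hPm : P.IsMaximal := Ideal.IsMaximal.of_liesOver_isMaximal P (span {(q : ℤ)})
    have hQm : Q.IsMaximal := Ideal.IsMaximal.of_liesOver_isMaximal Q (span {(q : ℤ)})
    change IsCoprime ((P ^ _) ^ k) ((Q ^ _) ^ k)
    refine IsCoprime.pow (IsCoprime.pow ?_)
    rw [Ideal.isCoprime_iff_sup_eq]
    exact hPm.coprime_of_ne hQm hPQ
  · intro P hP
    have hP' := (Set.mem_toFinset.1 hP)
    have : P.LiesOver (span {(q : ℤ)}) := hP'.2
    have : P.IsPrime := hP'.1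
    have hne : P ≠ ⊥ := Ideal.ne_bot_of_liesOver_of_ne_bot (p := span {(q : ℤ)}) h0 P
    have hmem : (q : 𝓞 L) ∈ P := by
      have h1 : (q : ℤ) ∈ P.under ℤ := by
        rw [← Ideal.LiesOver.over (P := P) (p := span {(q : ℤ)})]
        exact mem_span_singleton_self _
      simpa [Ideal.mem_comap] using h1
    have h2 := h ⟨P, inferInstance, hne⟩ ((mem_above hq.ne_zero).2 hmem)
    rw [pow_mul] at h2
    exact h2

/-- **The exponent of the different of a Galois extension.** -/
theorem multiplicity_lt [IsGalois ℚ L] (hq : q.Prime) {k : ℕ}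
    (hk : ¬ q ^ k ∣ Module.finrank ℚ L) {v : HeightOneSpectrum (𝓞 L)} (hv : v ∈ above L q) :
    multiplicity v.asIdeal (differentIdeal ℤ (𝓞 L)) < ram v * k := by
  rw [(finiteMultiplicity_asIdeal v differentIdeal_ne_bot_tame).multiplicity_lt_iff_not_dvd]
  intro h
  refine not_span_pow_dvd hq hk (span_pow_dvd hq fun w hw => ?_)
  have h1 := liesOver hq ((mem_above hq.ne_zero).1 hv)
  have h2 := liesOver hq ((mem_above hq.ne_zero).1 hw)
  obtain ⟨σ, hσ⟩ := exists_smul_eq_of_isGaloisGroup (span {(q : ℤ)}) v.asIdeal w.asIdeal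
    (L ≃ₐ[ℚ] L)
  have hram : ram w = ram v := by
    rw [ram, ram, ← hσ, ramificationIdx_smul]
  rw [hram, ← hσ, ← smul_different σ, pointwise_smul_def, pointwise_smul_def, ← Ideal.map_pow]
  obtain ⟨J, hJ⟩ := h
  rw [hJ, Ideal.map_mul]
  exact dvd_mul_right _ _

/-- **The exponent of a prime number in the discriminant of a Galois extension.** -/
theorem padicValNat_discr_le [IsGalois ℚ L] (hq : q.Prime) {k : ℕ}
    (hk : ¬ q ^ k ∣ Module.finrank ℚ L) :
    padicValNat q (discr L).natAbs ≤ Module.finrank ℚ L * k := by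
  rw [padicValNat_discr hq, ← sum_ram_fdeg (F := L) hq, Finset.sum_mul]
  refine Finset.sum_le_sum fun v hv => ?_
  have h := (multiplicity_lt hq hk hv).le
  calc fdeg v * multiplicity v.asIdeal (differentIdeal ℤ (𝓞 L)) ≤ fdeg v * (ram v * k) :=
        Nat.mul_le_mul_left _ h
    _ = ram v * fdeg v * k := by ring

/-- **The discriminant of a Galois extension of `ℚ` of degree at most `M`** is bounded in terms of
`M` and of its prime divisors. -/
theorem natAbs_discr_le [IsGalois ℚ L] {S : Finset ℕ} {M : ℕ} (hM : Module.finrank ℚ L ≤ M)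
    (hS : ∀ p : ℕ, p.Prime → p ∣ (discr L).natAbs → p ∈ S) (hS0 : ∀ p ∈ S, p ≠ 0) :
    (discr L).natAbs ≤ (∏ p ∈ S, p) ^ (M * (M + 1)) := by
  set D := (discr L).natAbs with hD
  have hD0 : D ≠ 0 := Int.natAbs_ne_zero.2 (discr_ne_zero L)
  have h1 : D = ∏ p ∈ D.primeFactors, p ^ D.factorization p :=
    (Nat.prod_factorization_pow_eq_self hD0).symm
  have hsub : D.primeFactors ⊆ S := fun p hp =>
    hS p (Nat.prime_of_mem_primeFactors hp) (Nat.dvd_of_mem_primeFactors hp)
  have hN0 : 0 < Module.finrank ℚ L := Module.finrank_pos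
  calc D = ∏ p ∈ D.primeFactors, p ^ D.factorization p := h1
    _ ≤ ∏ p ∈ D.primeFactors, p ^ (M * (M + 1)) := by
        refine Finset.prod_le_prod' fun p hp => ?_
        have hpp := Nat.prime_of_mem_primeFactors hp
        refine Nat.pow_le_pow_right hpp.pos ?_
        rw [Nat.factorization_def _ hpp]
        have hlt : ¬ p ^ (M + 1) ∣ Module.finrank ℚ L := by
          intro h
          have h2 := Nat.le_of_dvd hN0 h
          have h3 : M + 1 < p ^ (M + 1) := Nat.lt_pow_self hpp.one_lt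
          omega
        exact (padicValNat_discr_le hpp hlt).trans (Nat.mul_le_mul_right _ hM)
    _ ≤ ∏ p ∈ S, p ^ (M * (M + 1)) := by
        refine Finset.prod_le_prod_of_subset_of_one_le' hsub fun p hp _ => ?_
        exact Nat.one_le_pow _ _ (Nat.pos_of_ne_zero (hS0 p hp))
    _ = (∏ p ∈ S, p) ^ (M * (M + 1)) := by rw [Finset.prod_pow]

end Fermat.Agent.Cor.Herm
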