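import Fermat.Agent.Corollaries.Herm.Closure

/-!
# Hermite's finiteness theorem with bounded ramification

Let `S` be a finite set of prime numbers.

* `finite_of_primes` : `ℚ̄` contains only finitely many number fields of degree at most `n` whose
  discriminant has all its prime divisors in `S`.
* `exists_representatives` : there are only finitely many number fields with this property, up to
  isomorphism.
* `finite_hom` : for a finite group `G` there are only finitely many continuous homomorphisms
  `Gal(ℚ̄/ℚ) → G` unramified outside `S`.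
-/

set_option autoImplicit false

namespace Fermat.Agent.Cor.Herm

open NumberField IsDedekindDomain Fermat.Agent.Frob Fermat.Agent.Classic.Disc
open Fermat.Agent.Cor.Frob

local notation "Qbar" => AlgebraicClosure ℚ

/-- the Galois extensions of degree at most `M` unramified outside `S` -/
theorem finite_galois (S : Finset ℕ) (M : ℕ) :
    {L : IntermediateField ℚ Qbar | ∃ _ : NumberField L, IsGalois ℚ L ∧ Module.finrank ℚ L ≤ M ∧
      ∀ p : ℕ, p.Prime → p ∣ (discr L).natAbs → p ∈ S}.Finite := by
  classical
  refine ((finite_of_discr_bdd Qbar ((∏ p ∈ S.filter Nat.Prime, p) ^ (M * (M + 1)))).image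
    Subtype.val).subset ?_
  rintro L ⟨hL, hG, hM, hS⟩
  refine ⟨⟨L, hL.to_finiteDimensional⟩, ?_, rfl⟩
  have h := natAbs_discr_le (L := L) (S := S.filter Nat.Prime) hM
    (fun p hp hpD => Finset.mem_filter.2 ⟨hS p hp hpD, hp⟩)
    (fun p hp => (Finset.mem_filter.1 hp).2.ne_zero)
  change |discr L| ≤ (((∏ p ∈ S.filter Nat.Prime, p) ^ (M * (M + 1)) : ℕ) : ℤ)
  rw [← Int.natCast_natAbs]
  exact_mod_cast h

theorem le_conjField (K : IntermediateField ℚ Qbar) [NumberField K] : K ≤ conjField K := by
  intro x hx
  exact mem_conjField (K.val : K →+* Qbar) ⟨x, hx⟩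

theorem finite_le (L : IntermediateField ℚ Qbar) [NumberField L] :
    {K : IntermediateField ℚ Qbar | K ≤ L}.Finite := by
  have : Finite (IntermediateField ℚ L) :=
    Field.finite_intermediateField_of_exists_primitive_element ℚ L
      (Field.exists_primitive_element ℚ L)
  refine (Set.finite_range fun E : IntermediateField ℚ L => IntermediateField.lift E).subset ?_
  intro K hK
  exact ⟨IntermediateField.restrict hK, IntermediateField.lift_restrict hK⟩

/-- **Hermite's theorem, bounded ramification**: there are only finitely many number fields in `ℚ̄`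
of degree at most `n` which are unramified outside a finite set `S` of prime numbers. -/
theorem finite_of_primes (S : Finset ℕ) (n : ℕ) :
    {K : IntermediateField ℚ Qbar | ∃ _ : NumberField K, Module.finrank ℚ K ≤ n ∧
      ∀ p : ℕ, p.Prime → p ∣ (discr K).natAbs → p ∈ S}.Finite := by
  refine ((finite_galois S n.factorial).biUnion (t := fun L => {K | K ≤ L}) ?_).subset ?_
  · rintro L ⟨hL, -⟩
    exact finite_le L
  · rintro K ⟨hK, hn, hS⟩
    rw [Set.mem_iUnion₂]
    refine ⟨conjField K, ⟨inferInstance, inferInstance, ?_, fun p hp hpD =>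
      hS p hp (dvd_discr_of_conjField hp hpD)⟩, le_conjField K⟩
    exact (finrank_conjField_le K).trans (Nat.factorial_le hn)

/-- **Hermite's theorem, bounded ramification, up to isomorphism.** -/
theorem exists_representatives.{u} (S : Finset ℕ) (n : ℕ) :
    ∃ T : Set (IntermediateField ℚ Qbar), T.Finite ∧ ∀ (K : Type u) [Field K] [NumberField K],
      Module.finrank ℚ K ≤ n → (∀ p : ℕ, p.Prime → p ∣ (discr K).natAbs → p ∈ S) →
      ∃ F ∈ T, Nonempty (K ≃+* F) := by
  refine ⟨_, finite_of_primes S n, fun K _ _ hn hS => ?_⟩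
  obtain ⟨j⟩ := nonempty_emb K
  let e : K ≃ₐ[ℚ] j.toRatAlgHom.fieldRange := AlgEquiv.ofInjectiveField j.toRatAlgHom
  have hfin : FiniteDimensional ℚ j.toRatAlgHom.fieldRange :=
    LinearEquiv.finiteDimensional e.toLinearEquiv
  have hN : NumberField j.toRatAlgHom.fieldRange := ⟨⟩
  refine ⟨j.toRatAlgHom.fieldRange, ⟨hN, ?_, ?_⟩, ⟨e.toRingEquiv⟩⟩
  · rw [← e.toLinearEquiv.finrank_eq]
    exact hn
  · rw [← discr_eq_discr_of_algEquiv K e]
    exact hS

/-! ### Representations with finite image -/

/-- the homomorphisms which are trivial on a subgroup of finite index are finite in number -/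
theorem finite_hom_of_le {Γ G : Type*} [Group Γ] [Group G] [Finite G] (N : Subgroup Γ)
    [N.FiniteIndex] : {ρ : Γ →* G | N ≤ ρ.ker}.Finite := by
  classical
  have : Finite (Γ ⧸ N) := Subgroup.finite_quotient_of_finiteIndex
  refine Set.Finite.of_finite_image (f := fun ρ : Γ →* G => fun q : Γ ⧸ N => ρ q.out)
    (Set.toFinite _) ?_
  intro ρ hρ ρ' hρ' h
  ext σ
  have h1 : ∀ τ : Γ →* G, N ≤ τ.ker → τ σ = τ ((QuotientGroup.mk σ : Γ ⧸ N).out) := by
    intro τ hτ
    obtain ⟨ν, hν⟩ := QuotientGroup.mk_out_eq_mul N σ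
    rw [hν, map_mul, MonoidHom.mem_ker.1 (hτ ν.2), mul_one]
  rw [h1 ρ hρ, h1 ρ' hρ']
  exact congrFun h _

/-- **Finiteness of Galois representations with bounded ramification**: for a finite group `G` and
a finite set `S` of prime numbers there are only finitely many continuous homomorphisms
`Gal(ℚ̄/ℚ) → G` unramified outside `S`. -/
theorem finite_hom (S : Finset ℕ) (G : Type*) [Group G] [Finite G] :
    {ρ : GQ →* G | IsOpen (ρ.ker : Set GQ) ∧ ∀ p : ℕ, p.Prime → p ∉ S →
      ∀ A : ValuationSubring Qbar, A.LiesOverPrime p → ∀ σ ∈ A.inertiaSubgroupIn ℚ, ρ σ = 1}.Finite := by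
  classical
  refine ((finite_of_primes S (Nat.card G)).biUnion
    (t := fun L => {ρ : GQ →* G | L.fixingSubgroup ≤ ρ.ker}) ?_).subset ?_
  · rintro L ⟨hL, -⟩
    have : L.fixingSubgroup.FiniteIndex := by
      refine ⟨?_⟩
      rw [← IntermediateField.finrank_eq_fixingSubgroup_index]
      exact Module.finrank_pos.ne'
    exact finite_hom_of_le L.fixingSubgroup
  · rintro ρ ⟨ho, hS⟩
    rw [Set.mem_iUnion₂]
    let H : ClosedSubgroup GQ := ⟨ρ.ker, Subgroup.isClosed_of_isOpen _ ho⟩
    have hfix : (IntermediateField.fixedField ρ.ker).fixingSubgroup = ρ.ker :=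
      InfiniteGalois.fixingSubgroup_fixedField H
    set L : IntermediateField ℚ Qbar := IntermediateField.fixedField ρ.ker with hL
    have hrank : Module.finrank ℚ L = Nat.card ρ.range := by
      rw [IntermediateField.finrank_eq_fixingSubgroup_index, hfix, Subgroup.index_ker]
    have hle : Nat.card ρ.range ≤ Nat.card G :=
      Nat.card_le_card_of_injective _ Subtype.val_injective
    have hfd : FiniteDimensional ℚ L := by
      refine FiniteDimensional.of_finrank_pos ?_
      rw [hrank]
      exact Nat.card_pos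
    have hN : NumberField L := ⟨⟩
    refine ⟨L, ⟨hN, by rw [hrank]; exact hle, fun p hp hpD => ?_⟩, ?_⟩
    · by_contra hpS
      obtain ⟨A, hA, -⟩ := exists_frobenius p hp
      refine absurd hpD ?_
      rw [not_dvd_discr_iff hp hA]
      intro σ hσ
      ext i x
      obtain ⟨⟨-, τ, rfl⟩, hτ⟩ := MulAction.exists_smul_eq (GalK L) (L.val : L →+* Qbar) i
      have h1 : ∀ y : L, i y = τ (y : Qbar) := fun y => (RingHom.congr_fun hτ y).symm
      have h2 : τ⁻¹ * σ * τ ∈ L.fixingSubgroup := by
        rw [hfix, MonoidHom.mem_ker, map_mul, map_mul, hS p hp hpS A hA σ hσ, map_inv]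
        group
      rw [IntermediateField.mem_fixingSubgroup_iff] at h2
      have h3 := h2 x x.2
      change σ (i x) = i x
      rw [h1]
      have h4 : τ ((τ⁻¹ * σ * τ) (x : Qbar)) = σ (τ (x : Qbar)) := by
        change τ (τ.symm (σ (τ (x : Qbar)))) = _
        rw [AlgEquiv.apply_symm_apply]
      rw [← h4, h3]
    · exact hfix.le

/-- The same for a finite discrete group and continuous homomorphisms. -/
theorem finite_continuous (S : Finset ℕ) (G : Type*) [Group G] [Finite G] [TopologicalSpace G]
    [DiscreteTopology G] :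
    {ρ : GQ →* G | Continuous ρ ∧ ∀ p : ℕ, p.Prime → p ∉ S →
      ∀ A : ValuationSubring Qbar, A.LiesOverPrime p → ∀ σ ∈ A.inertiaSubgroupIn ℚ, ρ σ = 1}.Finite := by
  refine (finite_hom S G).subset ?_
  rintro ρ ⟨hc, hS⟩
  refine ⟨?_, hS⟩
  have h : (ρ.ker : Set GQ) = ρ ⁻¹' {1} := by
    ext σ
    exact MonoidHom.mem_ker
  rw [h]
  exact (isOpen_discrete _).preimage hc

end Fermat.Agent.Cor.Herm
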